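/-
S17 / tower H / WALL (architect helper710), geometric leaves G-ENUM and G-INF (helper260),
in unfolded form (Lib/RR only):

* `enum` : an effective divisor of degree `k` is a sum of `k` places;
* `inf`  : there are infinitely many places (`K` algebraically closed of characteristic `0`).
-/
import Fermat.Agent.S17.H680.Descent
import Fermat.Agent.Lib.RR.H804.CharZero

set_option autoImplicit false

noncomputable section

open AlgebraicCurve

namespace Fermat.Agent.S17.H260

open Fermat.Agent.Lib.RR

variable {K F : Type*} [Field K] [Field F] [Algebra K F]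

/-- **G-ENUM.**  Enumeration of an effective divisor with multiplicities. -/
theorem enum [FF1 K F] : ∀ (k : ℕ) (D : Divisor K F), 0 ≤ D → Divisor.degree D = k →
    ∃ A : Fin k → Place K F, D = ∑ i, prim (A i) := by
  intro k
  induction k with
  | zero =>
    intro D hD hk
    refine ⟨Fin.elim0, ?_⟩
    rw [Fermat.Agent.S17.H680.eq_zero_of_nonneg_of_degree_eq_zero hD (by simpa using hk)]
    simp
  | succ k ih =>
    intro D hD hk
    -- some coefficient is positive
    have hne : D ≠ 0 := by
      rintro rfl
      rw [map_zero] at hk
      have : ((k + 1 : ℕ) : ℤ) = 0 := hk.symm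
      omega
    obtain ⟨v, hv⟩ : ∃ v, D v ≠ 0 := by
      by_contra h
      exact hne (Finsupp.ext fun v => by
        by_contra hv
        exact h ⟨v, hv⟩)
    have hv0 : (0 : ℤ) ≤ D v := by simpa using Finsupp.le_def.mp hD v
    have hv1 : 1 ≤ D v := by omega
    have hD' : 0 ≤ D - prim v := by
      classical
      rw [Finsupp.le_def]
      intro w
      by_cases hw : w = v
      · subst hw
        simp [prim]
        omega
      · have : (0 : ℤ) ≤ D w := by simpa using Finsupp.le_def.mp hD w
        simpa [prim, Finsupp.single_apply, Ne.symm hw] using this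
    have hk' : Divisor.degree (D - prim v) = k := by
      rw [map_sub, hk, degree_prim v (deg_eq_one v)]
      push_cast
      ring
    obtain ⟨A, hA⟩ := ih (D - prim v) hD' hk'
    refine ⟨Fin.cons v A, ?_⟩
    rw [Fin.sum_univ_succ]
    simp only [Fin.cons_zero, Fin.cons_succ]
    rw [← hA]
    abel

/-- Two distinct constants are the values of `x` at distinct places. -/
theorem place_ne_of_ord_sub_pos {x : F} {c c' : K} (hcc' : c ≠ c') {P P' : Place K F}
    (hP : 0 < P.ord (x - algebraMap K F c)) (hP' : 0 < P'.ord (x - algebraMap K F c')) :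
    P ≠ P' := by
  rintro rfl
  -- the nonzero constant `c' - c` would have positive order
  have h1 : x - algebraMap K F c ≠ 0 := ne_zero_of_ord_ne_zero P hP.ne'
  have h2 : x - algebraMap K F c' ≠ 0 := ne_zero_of_ord_ne_zero P hP'.ne'
  have hsub : (x - algebraMap K F c) - (x - algebraMap K F c') = algebraMap K F (c' - c) := by
    rw [map_sub]; ring
  have hc : algebraMap K F (c' - c) ≠ 0 := by
    rw [Ne, map_eq_zero_iff _ (algebraMap K F).injective, sub_eq_zero]
    exact fun h => hcc' h.symm
  have h3 : x - algebraMap K F c + -(x - algebraMap K F c') ≠ 0 := by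
    rw [← sub_eq_add_neg, hsub]; exact hc
  have hmin := ord_add P h1 (neg_ne_zero.mpr h2) h3
  rw [← sub_eq_add_neg, hsub, ord_algebraMap, ord_neg] at hmin
  have : (1 : ℤ) ≤ min (P.ord (x - algebraMap K F c)) (P.ord (x - algebraMap K F c')) :=
    le_min hP hP'
  omega

/-- **G-INF.**  There are infinitely many places. -/
theorem inf [FF1 K F] [IsAlgClosed K] [CharZero K] (L : ℕ) : ∃ Q : Fin L → Place K F, Function.Injective Q := by
  obtain ⟨x, hx, hfin⟩ := FF1.exists_finite (K := K) (F := F)
  have hex : ∀ c : K, ∃ P : Place K F, 0 < P.ord (x - algebraMap K F c) :=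
    fun c => H804.exists_place_ord_sub_pos hx c
  choose P hP using hex
  have hinj : Function.Injective P := by
    intro c c' h
    by_contra hcc'
    exact place_ne_of_ord_sub_pos hcc' (hP c) (hP c') h
  exact ⟨fun i => P (Infinite.natEmbedding K i.1),
    fun i j h => Fin.ext ((Infinite.natEmbedding K).injective (hinj h))⟩

end Fermat.Agent.S17.H260
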