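/-
S17 / tower H / WALL (architect helper710), leaf A2 = MINOR (helper260), Mathlib-only,
unfolded form: a matrix whose rows span a space of dimension `κ` has a nonzero `κ × κ` minor.
-/
import Mathlib.LinearAlgebra.Matrix.Rank
import Mathlib.LinearAlgebra.Matrix.NonsingularInverse
import Mathlib.LinearAlgebra.Matrix.ToLin
import Mathlib.LinearAlgebra.Dimension.Constructions
import Mathlib.LinearAlgebra.FiniteDimensional.Lemmas

set_option autoImplicit false

noncomputable section

namespace Fermat.Agent.S17.H260

open Module

/-- A family spanning a space of dimension `κ` contains `κ` linearly independent members. -/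
theorem exists_fin_linearIndependent_of_finrank_span {K V σ : Type*} [Field K] [AddCommGroup V]
    [Module K V] [FiniteDimensional K V] (B : σ → V) (κ : ℕ)
    (h : finrank K (Submodule.span K (Set.range B)) = κ) :
    ∃ s : Fin κ → σ, LinearIndependent K (fun i => B (s i)) := by
  classical
  obtain ⟨b, hb, hspan, hli⟩ := exists_linearIndependent K (Set.range B)
  have hfin : b.Finite := hli.setFinite
  have : Fintype b := hfin.fintype
  have hcard : Fintype.card b = κ := by
    rw [← h, ← hspan, finrank_span_set_eq_card hli, Set.toFinset_card]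
  let e : Fin κ ≃ b := (Fintype.equivFinOfCardEq hcard).symm
  have hex : ∀ i : Fin κ, ∃ s : σ, B s = (e i : V) := fun i => hb (e i).2
  choose s hs using hex
  refine ⟨s, ?_⟩
  have : (fun i => B (s i)) = (Subtype.val : b → V) ∘ e := funext fun i => hs i
  rw [this]
  exact hli.comp e e.injective

/-- **A2 (MINOR).**  A matrix whose rows span a space of dimension `κ` has a nonzero
`κ × κ` minor. -/
theorem exists_minor_ne_zero {K σ c : Type*} [Field K] [Finite c] (κ : ℕ) (B : σ → c → K)
    (h : finrank K (Submodule.span K (Set.range B)) = κ) :
    ∃ (s : Fin κ → σ) (t : Fin κ → c), (Matrix.of fun i j => B (s i) (t j)).det ≠ 0 := by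
  classical
  have := Fintype.ofFinite c
  obtain ⟨s, hs⟩ := exists_fin_linearIndependent_of_finrank_span B κ h
  -- the `κ × c` matrix of the chosen rows has rank `κ`
  let M : Matrix (Fin κ) c K := Matrix.of fun i j => B (s i) j
  have hMrow : LinearIndependent K M.row := hs
  have hrank : M.rank = κ := by
    rw [hMrow.rank_matrix, Fintype.card_fin]
  have hcols : finrank K (Submodule.span K (Set.range M.col)) = κ := by
    rw [← Matrix.rank_eq_finrank_span_cols, hrank]
  obtain ⟨t, ht⟩ := exists_fin_linearIndependent_of_finrank_span M.col κ hcols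
  refine ⟨s, t, ?_⟩
  let N : Matrix (Fin κ) (Fin κ) K := Matrix.of fun i j => B (s i) (t j)
  have hNcol : LinearIndependent K N.col := ht
  have hunit : IsUnit N := Matrix.linearIndependent_cols_iff_isUnit.mp hNcol
  exact ((Matrix.isUnit_iff_isUnit_det N).mp hunit).ne_zero

end Fermat.Agent.S17.H260
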