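/-
S17 / tower H / WALL (architect helper710): the frozen leaves A2 (MINOR), G-ENUM and G-INF of
`S17/H710/Wall/Defs.lean`, in their EXACT frozen shapes (helper260).
-/
import Fermat.Agent.S17.H710.Wall.Defs
import Fermat.Agent.S17.H260.WallGeo
import Fermat.Agent.S17.H260.WallMinor

set_option autoImplicit false

noncomputable section

open AlgebraicCurve

namespace Fermat.Agent.S17.H260

open Fermat.Agent.Lib.RR Fermat.Agent.S17.Wall

/-- **A2 (MINOR)**, exact frozen shape. -/
theorem minorStatement (K : Type*) [Field K] [CharZero K] : MinorStatement K := by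
  intro σ c _ κ B h h0
  obtain ⟨s, t, hdet⟩ := exists_minor_ne_zero κ B h
  exact hdet (congrFun h0 (s, t))

/-- **G-ENUM**, exact frozen shape. -/
theorem enumStatement (K F : Type*) [Field K] [Field F] [Algebra K F] [FF1 K F] :
    EnumStatement K F :=
  fun D hD k hk => enum k D hD hk

/-- **G-INF**, exact frozen shape (`K` algebraically closed of characteristic `0`). -/
theorem infStatement (K F : Type*) [Field K] [Field F] [Algebra K F] [FF1 K F] [IsAlgClosed K]
    [CharZero K] : InfStatement K F :=
  fun L => inf L

end Fermat.Agent.S17.H260
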