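/-
S17 / tower H / sub-project GAUSS (lead helper290): leaf AVOID (helper260), exact frozen shape of
`S17/H290/GaussDefs.lean`: some hyperplane section avoids a given finite set of places.
-/
import Fermat.Agent.S17.H290.GaussDefs
import Fermat.Agent.S17.H440.EmbGlue
import Mathlib.GroupTheory.CosetCover

set_option autoImplicit false

noncomputable section

open AlgebraicCurve

namespace Fermat.Agent.S17.H260

open Fermat.Agent.Lib.RR Fermat.Agent.S17.HWall Fermat.Agent.S17.HContract

/-- Over an infinite field, finitely many nonzero vectors are simultaneously non-orthogonal to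
some vector. -/
theorem exists_dot_ne_zero {K : Type*} [Field K] [Infinite K] {n : ℕ} {ι : Type*}
    (S : Finset ι) (y : ι → Fin n → K) (hy : ∀ i ∈ S, y i ≠ 0) :
    ∃ a : Fin n → K, ∀ i ∈ S, dot a (y i) ≠ 0 := by
  classical
  -- the hyperplane orthogonal to `y i`
  let H : ι → Subspace K (Fin n → K) := fun i =>
    { carrier := {a | dot a (y i) = 0}
      add_mem' := fun {a b} ha hb => by
        simp only [Set.mem_ofPred_eq, dot] at ha hb ⊢
        rw [add_dotProduct, ha, hb, add_zero]
      zero_mem' := by simp [dot]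
      smul_mem' := fun c a ha => by
        simp only [Set.mem_ofPred_eq, dot] at ha ⊢
        rw [smul_dotProduct, ha, smul_zero] }
  have hmem : ∀ i a, a ∈ H i ↔ dot a (y i) = 0 := fun i a => Iff.rfl
  have htop : (⊤ : Subspace K (Fin n → K)) ∉ S.image H := by
    intro h
    obtain ⟨i, hi, hiH⟩ := Finset.mem_image.mp h
    apply hy i hi
    funext j
    have h1 : (Pi.single j 1 : Fin n → K) ∈ H i := by rw [hiH]; trivial
    have h2 := (hmem i _).mp h1
    simpa [dot] using h2
  have hne := Subspace.biUnion_ne_univ_of_top_notMem htop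
  obtain ⟨a, ha⟩ : ∃ a : Fin n → K, a ∉ ⋃ p ∈ S.image H, (p : Set (Fin n → K)) := by
    by_contra hcon
    push Not at hcon
    exact hne (Set.eq_univ_of_forall hcon)
  refine ⟨a, fun i hi h0 => ha ?_⟩
  simp only [Set.mem_iUnion]
  exact ⟨H i, Finset.mem_image_of_mem H hi, (hmem i a).mpr h0⟩

variable {K F : Type*} [Field K] [CharZero K] [Field F] [Algebra K F] [FF1 K F]

/-- **AVOID**, exact frozen shape. -/
theorem avoidStatement (E : EmbData K F) : Fermat.Agent.S17.H290.AvoidStatement E := by
  classical
  intro S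
  by_cases hS : S.Nonempty
  · obtain ⟨a, ha⟩ := exists_dot_ne_zero (K := K) S (fun P => E.pt P)
      (fun P _ => Fermat.Agent.S17.H440.pt_ne_zero E P)
    have ha0 : a ≠ 0 := by
      rintro rfl
      obtain ⟨P, hP⟩ := hS
      exact ha P hP (by simp [dot])
    refine ⟨a, ha0, fun P hP => ?_⟩
    have h1 : ¬ 0 < E.Z a P := fun h => ha P hP ((E.pt_spec P a ha0).mpr h)
    have h2 : (0 : ℤ) ≤ E.Z a P := by
      simpa using Finsupp.le_def.mp (E.Z_nonneg a) P
    omega
  · refine ⟨Pi.single 0 1, ?_, fun P hP => absurd ⟨P, hP⟩ hS⟩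
    intro h
    have := congrFun h 0
    simp at this

end Fermat.Agent.S17.H260
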