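/-
S17 / tower H / sub-project GAUSS (lead helper290): leaf PN = projective normality (helper260),
exact frozen shape of `S17/H290/GaussDefs.lean`, under the standing hypothesis `Wall.Big E`
(`4 g + 1 ≤ m`): every element of `L(e m ∞)` is the value at `E.x` of a form of degree `e`.
-/
import Fermat.Agent.S17.H290.GaussDefs
import Fermat.Agent.S17.H440.EmbGlue
import Fermat.Agent.Lib.RR.H259.Mult

set_option autoImplicit false

noncomputable section

open AlgebraicCurve MvPolynomial

namespace Fermat.Agent.S17.H260

open Fermat.Agent.Lib.RR Fermat.Agent.S17.HWall Fermat.Agent.S17.HContract Fermat.Agent.S17.Wall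

variable {K F : Type*} [Field K] [CharZero K] [Field F] [Algebra K F] [FF1 K F]

omit [CharZero K] [FF1 K F] in
theorem aeval_linForm {n : ℕ} (x : Fin n → F) (a : Fin n → K) :
    aeval x (linForm a) = lin x a := by
  simp [linForm, lin, Algebra.smul_def]

omit [CharZero K] in
/-- degree of `k ∞` -/
theorem degree_nsmul_prim (v : Place K F) (k : ℕ) :
    Divisor.degree ((k • prim v : Divisor K F)) = k := by
  rw [map_nsmul, degree_prim v (deg_eq_one v)]
  simp

/-- **PN**, exact frozen shape (for `4 g + 1 ≤ m`). -/
theorem projNormalStatement (E : EmbData K F) (hE : Big E) :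
    Fermat.Agent.S17.H290.ProjNormalStatement E := by
  intro e
  induction e with
  | zero =>
    intro f hf
    rw [zero_mul, zero_smul, L_zero] at hf
    obtain ⟨c, rfl⟩ := hf
    exact ⟨C c, isHomogeneous_C _ c, by simp⟩
  | succ e ih =>
    intro f hf
    rcases Nat.eq_zero_or_pos e with he | he
    · -- degree one: `x` spans `L(m ∞)`
      subst he
      rw [zero_add, one_mul] at hf
      obtain ⟨a, rfl⟩ := Fermat.Agent.S17.H440.exists_lin_eq E hf
      exact ⟨linForm a, linForm_isHomogeneous a, aeval_linForm E.x a⟩
    · -- `L(e m ∞) L(m ∞) = L((e + 1) m ∞)`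
      have hg : genusFF K F = genusR K F := genusFF_eq_genusR
      have hB : 4 * genusR K F + 1 ≤ E.m := hE
      have hA1 : 4 * (genusFF K F : ℤ) ≤ Divisor.degree (((e * E.m) • prim E.vinf : Divisor K F)) := by
        rw [degree_nsmul_prim, hg]
        have : E.m ≤ e * E.m := Nat.le_mul_of_pos_left _ he
        exact_mod_cast (by omega : 4 * genusR K F ≤ e * E.m)
      have hB1 : 4 * (genusFF K F : ℤ) ≤ Divisor.degree ((E.m • prim E.vinf : Divisor K F)) := by
        rw [degree_nsmul_prim, hg]
        exact_mod_cast (by omega : 4 * genusR K F ≤ E.m)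
      have hsplit : (((e + 1) * E.m) • prim E.vinf : Divisor K F)
          = (e * E.m) • prim E.vinf + E.m • prim E.vinf := by
        rw [add_mul, one_mul, add_smul]
      rw [hsplit] at hf
      obtain ⟨n, a, b, ha, hb, rfl⟩ := Fermat.Agent.Lib.RR.H259.exists_sum_mul_eq hA1 hB1 hf
      choose G hG1 hG2 using fun i => ih (a i) (ha i)
      choose c hc using fun i => Fermat.Agent.S17.H440.exists_lin_eq E (hb i)
      refine ⟨∑ i, G i * linForm (c i), ?_, ?_⟩
      · exact IsHomogeneous.sum _ _ _ fun i _ => (hG1 i).mul (linForm_isHomogeneous (c i))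
      · rw [map_sum]
        refine Finset.sum_congr rfl fun i _ => ?_
        rw [map_mul, hG2 i, aeval_linForm, hc i]

end Fermat.Agent.S17.H260
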