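import Mathlib

/-!
# S17, piece W-KUM (helper260): the Kummer argument for weak Mordell–Weil, abstract core

`E / k` is a Galois extension (possibly infinite), `G = Gal(E/k)` acts on an abelian group `J`
(`DistribMulAction`), `M = J^G`.  Assume

* every `x : J` is fixed by `Gal(E/K)` for some finite `K / k`;
* `J[n]` is finite and `J` is `n`-divisible;
* `P : G → Prop` is a set of "inertia elements" which fix every `y` with `n • y ∈ M`;
* for every `d` there are only finitely many intermediate fields of degree `≤ d` fixed by all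
  `σ` with `P σ` (Hermite–Minkowski).

Then `M / n M` is finite (`kummer_finiteIndex`).
-/

set_option autoImplicit false

namespace Fermat.Agent.S17.H260

open scoped Pointwise

/-- A subgroup `R` of `M` has finite index as soon as there is a map `Φ` to a finite type whose
fibres lie in single cosets of `R`. -/
theorem finiteIndex_of_fibres {M α : Type*} [AddCommGroup M] [Finite α] (R : AddSubgroup M)
    (Φ : M → α) (h : ∀ x x', Φ x = Φ x' → x - x' ∈ R) : R.FiniteIndex := by
  classical
  let g : α → M ⧸ R := fun a =>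
    if h : ∃ x, Φ x = a then (QuotientAddGroup.mk (Classical.choose h) : M ⧸ R) else 0
  have hg : Function.Surjective g := by
    intro q
    obtain ⟨x, rfl⟩ := QuotientAddGroup.mk_surjective q
    refine ⟨Φ x, ?_⟩
    have hex : ∃ x', Φ x' = Φ x := ⟨x, rfl⟩
    simp only [g, dif_pos hex]
    have h1 := h _ _ (Classical.choose_spec hex)
    rw [QuotientAddGroup.eq]
    have : -Classical.choose hex + x = -(Classical.choose hex - x) := by abel
    rw [this]
    exact R.neg_mem h1
  have : Finite (M ⧸ R) := Finite.of_surjective g hg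
  exact AddSubgroup.finiteIndex_of_finite_quotient

section

variable {k E : Type*} [Field k] [Field E] [Algebra k E]
variable {J : Type*} [AddCommGroup J] [DistribMulAction (E ≃ₐ[k] E) J]

theorem smul_nsmul_comm_h260 (σ : E ≃ₐ[k] E) (n : ℕ) (y : J) : σ • (n • y) = n • (σ • y) :=
  smul_comm σ n y

/-- `σ y - y` is `n`-torsion if `n y` is fixed. -/
theorem nsmul_smul_sub_eq_zero (n : ℕ) {y : J}
    (hy : n • y ∈ FixedPoints.addSubgroup (E ≃ₐ[k] E) J) (σ : E ≃ₐ[k] E) :
    n • (σ • y - y) = 0 := by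
  have h1 : σ • (n • y) = n • y := hy σ
  rw [smul_sub, ← smul_nsmul_comm_h260, h1, sub_self]

/-- The orbit of a division point is finite, of cardinality at most `#J[n]`. -/
theorem orbit_ncard_le (n : ℕ) (htors : {y : J | n • y = 0}.Finite) {y : J}
    (hy : n • y ∈ FixedPoints.addSubgroup (E ≃ₐ[k] E) J) :
    (MulAction.orbit (E ≃ₐ[k] E) y).Finite ∧
      (MulAction.orbit (E ≃ₐ[k] E) y).ncard ≤ htors.toFinset.card := by
  have hsub : MulAction.orbit (E ≃ₐ[k] E) y ⊆ (fun t => t + y) '' {y : J | n • y = 0} := by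
    rintro _ ⟨σ, rfl⟩
    exact ⟨σ • y - y, nsmul_smul_sub_eq_zero n hy σ, by simp⟩
  have hfin : ((fun t => t + y) '' {y : J | n • y = 0}).Finite := htors.image _
  refine ⟨hfin.subset hsub, ?_⟩
  calc (MulAction.orbit (E ≃ₐ[k] E) y).ncard
      ≤ ((fun t => t + y) '' {y : J | n • y = 0}).ncard := Set.ncard_le_ncard hsub hfin
    _ ≤ ({y : J | n • y = 0}).ncard := Set.ncard_image_le htors
    _ = htors.toFinset.card := Set.ncard_eq_toFinset_card _ htors

variable [IsGalois k E]

/-- The field of definition of a division point. -/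
theorem exists_field_of_division (n : ℕ)
    (hstab : ∀ x : J, ∃ K : IntermediateField k E, FiniteDimensional k K ∧
      ∀ σ : E ≃ₐ[k] E, (∀ a ∈ K, σ a = a) → σ • x = x)
    (htors : {y : J | n • y = 0}.Finite) {y : J}
    (hy : n • y ∈ FixedPoints.addSubgroup (E ≃ₐ[k] E) J) :
    ∃ K : IntermediateField k E, FiniteDimensional k K ∧
      Module.finrank k K ≤ htors.toFinset.card ∧
      (∀ σ : E ≃ₐ[k] E, (∀ a ∈ K, σ a = a) ↔ σ • y = y) := by
  classical
  set H : Subgroup (E ≃ₐ[k] E) := MulAction.stabilizer (E ≃ₐ[k] E) y with hH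
  obtain ⟨K₀, hK₀fd, hK₀⟩ := hstab y
  have hle : K₀.fixingSubgroup ≤ H := by
    intro σ hσ
    rw [IntermediateField.mem_fixingSubgroup_iff] at hσ
    exact hK₀ σ hσ
  have hopen : IsOpen (H : Set (E ≃ₐ[k] E)) :=
    Subgroup.isOpen_mono hle (IntermediateField.fixingSubgroup_isOpen K₀)
  have hclosed : IsClosed (H : Set (E ≃ₐ[k] E)) := Subgroup.isClosed_of_isOpen H hopen
  have hfix : (IntermediateField.fixedField H).fixingSubgroup = H :=
    InfiniteGalois.fixingSubgroup_fixedField ⟨H, hclosed⟩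
  obtain ⟨hofin, hocard⟩ := orbit_ncard_le (k := k) (E := E) n htors hy
  have hindex : H.index = (MulAction.orbit (E ≃ₐ[k] E) y).ncard :=
    MulAction.index_stabilizer (E ≃ₐ[k] E) y
  have hpos : 0 < (MulAction.orbit (E ≃ₐ[k] E) y).ncard :=
    (Set.ncard_pos hofin).mpr ⟨y, MulAction.mem_orbit_self y⟩
  have hrank : Module.finrank k (IntermediateField.fixedField H) = H.index := by
    rw [IntermediateField.finrank_eq_fixingSubgroup_index, hfix]
  refine ⟨IntermediateField.fixedField H, ?_, ?_, fun σ => ⟨fun h => ?_, fun h a ha => ?_⟩⟩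
  · exact Module.finite_of_finrank_pos (by rw [hrank, hindex]; exact hpos)
  · rw [hrank, hindex]; exact hocard
  · have : σ ∈ (IntermediateField.fixedField H).fixingSubgroup := by
      rw [IntermediateField.mem_fixingSubgroup_iff]; exact h
    rw [hfix] at this
    exact this
  · exact (IntermediateField.mem_fixedField_iff H a).mp ha σ h

/-- **Kummer argument**: weak Mordell–Weil from its inputs. -/
theorem kummer_finiteIndex (n : ℕ)
    (hstab : ∀ x : J, ∃ K : IntermediateField k E, FiniteDimensional k K ∧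
      ∀ σ : E ≃ₐ[k] E, (∀ a ∈ K, σ a = a) → σ • x = x)
    (htors : {y : J | n • y = 0}.Finite)
    (hdiv : ∀ x : J, ∃ y : J, n • y = x)
    (P : (E ≃ₐ[k] E) → Prop)
    (hunr : ∀ σ, P σ → ∀ y : J, n • y ∈ FixedPoints.addSubgroup (E ≃ₐ[k] E) J → σ • y = y)
    (hHM : ∀ d : ℕ, {K : IntermediateField k E | FiniteDimensional k K ∧
      Module.finrank k K ≤ d ∧ ∀ σ, P σ → ∀ a ∈ K, σ a = a}.Finite) :
    (nsmulAddMonoidHom n : FixedPoints.addSubgroup (E ≃ₐ[k] E) J →+
      FixedPoints.addSubgroup (E ≃ₐ[k] E) J).range.FiniteIndex := by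
  classical
  set t := htors.toFinset.card with ht
  -- the finite set of candidate fields and their compositum
  set 𝒦 : Set (IntermediateField k E) := {K : IntermediateField k E | FiniteDimensional k K ∧
      Module.finrank k K ≤ t ∧ ∀ σ, P σ → ∀ a ∈ K, σ a = a} with h𝒦
  have : Finite 𝒦 := (hHM t).to_subtype
  have : ∀ i : 𝒦, FiniteDimensional k (i : IntermediateField k E) := fun i => i.2.1
  set L : IntermediateField k E := ⨆ i : 𝒦, (i : IntermediateField k E) with hL
  have hLfd : FiniteDimensional k L := IntermediateField.finiteDimensional_iSup_of_finite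
  -- `Gal(E/L)` fixes all division points
  have hfixL : ∀ y : J, n • y ∈ FixedPoints.addSubgroup (E ≃ₐ[k] E) J →
      ∀ σ ∈ L.fixingSubgroup, σ • y = y := by
    intro y hy σ hσ
    obtain ⟨K, hKfd, hKrank, hK⟩ := exists_field_of_division n hstab htors hy
    have hKmem : K ∈ 𝒦 := by
      refine ⟨hKfd, hKrank, fun τ hτ a ha => ?_⟩
      exact (hK τ).mpr (hunr τ hτ y hy) a ha
    have hKL : K ≤ L := le_iSup (fun i : 𝒦 => (i : IntermediateField k E)) ⟨K, hKmem⟩
    rw [IntermediateField.mem_fixingSubgroup_iff] at hσ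
    exact (hK σ).mp fun a ha => hσ a (hKL ha)
  -- finiteness of `G / Gal(E/L)`
  have hidx : L.fixingSubgroup.index ≠ 0 := by
    rw [← IntermediateField.finrank_eq_fixingSubgroup_index]
    exact Module.finrank_pos.ne'
  have : L.fixingSubgroup.FiniteIndex := ⟨hidx⟩
  have : Finite ((E ≃ₐ[k] E) ⧸ L.fixingSubgroup) := Subgroup.finite_quotient_of_finiteIndex
  have : Finite {y : J // n • y = 0} := htors.to_subtype
  -- the Kummer map
  let ydiv : J → J := fun x => Classical.choose (hdiv x)
  have hydiv : ∀ x, n • ydiv x = x := fun x => Classical.choose_spec (hdiv x)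
  let Φ : FixedPoints.addSubgroup (E ≃ₐ[k] E) J →
      ((E ≃ₐ[k] E) ⧸ L.fixingSubgroup → {y : J // n • y = 0}) := fun x q =>
    ⟨q.out • ydiv x - ydiv x,
      nsmul_smul_sub_eq_zero n (by rw [hydiv]; exact x.2) q.out⟩
  have hΦ : ∀ (x : FixedPoints.addSubgroup (E ≃ₐ[k] E) J) (σ : E ≃ₐ[k] E),
      σ • ydiv x - ydiv x = ((Φ x (QuotientGroup.mk σ)).1 : J) := by
    intro x σ
    set ρ : E ≃ₐ[k] E := (QuotientGroup.mk σ : (E ≃ₐ[k] E) ⧸ L.fixingSubgroup).out with hρ
    have hmk : (QuotientGroup.mk ρ : (E ≃ₐ[k] E) ⧸ L.fixingSubgroup) = QuotientGroup.mk σ :=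
      QuotientGroup.out_eq' _
    have hτ : ρ⁻¹ * σ ∈ L.fixingSubgroup := QuotientGroup.eq.mp hmk
    have h1 : (ρ⁻¹ * σ) • ydiv x = ydiv x :=
      hfixL (ydiv x) (by rw [hydiv]; exact x.2) _ hτ
    have h2 : σ • ydiv x = ρ • ydiv x := by
      have : σ = ρ * (ρ⁻¹ * σ) := by group
      rw [this, mul_smul, h1]
    show σ • ydiv x - ydiv x = ρ • ydiv x - ydiv x
    rw [h2]
  refine finiteIndex_of_fibres _ Φ fun x x' hxx' => ?_
  have hw : ydiv x - ydiv x' ∈ FixedPoints.addSubgroup (E ≃ₐ[k] E) J := by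
    intro σ
    have e1 := hΦ x σ
    have e2 := hΦ x' σ
    rw [hxx'] at e1
    have e3 : σ • ydiv x - ydiv x = σ • ydiv x' - ydiv x' := by rw [e1, e2]
    rw [smul_sub]
    have : σ • ydiv x - σ • ydiv x' = (σ • ydiv x - ydiv x) - (σ • ydiv x' - ydiv x')
        + (ydiv x - ydiv x') := by abel
    rw [this, e3, sub_self, zero_add]
  refine ⟨⟨ydiv x - ydiv x', hw⟩, ?_⟩
  apply Subtype.ext
  show n • (ydiv x - ydiv x') = ((x - x' : FixedPoints.addSubgroup (E ≃ₐ[k] E) J) : J)
  rw [smul_sub, hydiv, hydiv]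
  rfl

end

end Fermat.Agent.S17.H260
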