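import Fermat.Agent.S17.H260.KummerCore

/-!
# S17, tower W/G (helper260): weak Mordell–Weil WITHOUT full divisibility

`kummer_finiteIndex_weak`: in the Kummer argument the hypothesis "`J` is `n`-divisible" can be
replaced by "`m • x` is divisible by `n * m` for every rational `x`" for one fixed `m ≠ 0`
(e.g. `m` = exponent of the torsion of `H₁`), provided the torsion, unramifiedness and
Hermite–Minkowski inputs are given for the exponent `n * m`.

Consequence for tower G: torsion-freeness of `Γ^ab / ⟨par, ell⟩` is NOT needed for S17.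
-/

set_option autoImplicit false

namespace Fermat.Agent.S17.H260

section

variable {k E : Type*} [Field k] [Field E] [Algebra k E] [IsGalois k E]
variable {J : Type*} [AddCommGroup J] [DistribMulAction (E ≃ₐ[k] E) J]

/-- Core of the Kummer argument: if every rational `x` has a "division point" `y x` (with
`N • y x` rational) and `F x x'` measures the failure `x - x'` against `y x - y x'`, the fibres of
the Kummer map are controlled.  Here we only record: equal Kummer cocycles force
`y x - y x'` to be rational. -/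
theorem kummer_fibres (N : ℕ)
    (hstab : ∀ x : J, ∃ K : IntermediateField k E, FiniteDimensional k K ∧
      ∀ σ : E ≃ₐ[k] E, (∀ a ∈ K, σ a = a) → σ • x = x)
    (htors : {y : J | N • y = 0}.Finite)
    (P : (E ≃ₐ[k] E) → Prop)
    (hunr : ∀ σ, P σ → ∀ y : J, N • y ∈ FixedPoints.addSubgroup (E ≃ₐ[k] E) J → σ • y = y)
    (hHM : ∀ d : ℕ, {K : IntermediateField k E | FiniteDimensional k K ∧
      Module.finrank k K ≤ d ∧ ∀ σ, P σ → ∀ a ∈ K, σ a = a}.Finite)
    {ι : Type*} (y : ι → J) (hy : ∀ i, N • y i ∈ FixedPoints.addSubgroup (E ≃ₐ[k] E) J) :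
    ∃ (α : Type) (_ : Finite α) (Φ : ι → α), ∀ i i', Φ i = Φ i' →
      y i - y i' ∈ FixedPoints.addSubgroup (E ≃ₐ[k] E) J := by
  classical
  set t := htors.toFinset.card with ht
  set 𝒦 : Set (IntermediateField k E) := {K : IntermediateField k E | FiniteDimensional k K ∧
      Module.finrank k K ≤ t ∧ ∀ σ, P σ → ∀ a ∈ K, σ a = a} with h𝒦
  have : Finite 𝒦 := (hHM t).to_subtype
  have : ∀ i : 𝒦, FiniteDimensional k (i : IntermediateField k E) := fun i => i.2.1
  set L : IntermediateField k E := ⨆ i : 𝒦, (i : IntermediateField k E) with hL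
  have hLfd : FiniteDimensional k L := IntermediateField.finiteDimensional_iSup_of_finite
  have hfixL : ∀ z : J, N • z ∈ FixedPoints.addSubgroup (E ≃ₐ[k] E) J →
      ∀ σ ∈ L.fixingSubgroup, σ • z = z := by
    intro z hz σ hσ
    obtain ⟨K, hKfd, hKrank, hK⟩ := exists_field_of_division N hstab htors hz
    have hKmem : K ∈ 𝒦 := by
      refine ⟨hKfd, hKrank, fun τ hτ a ha => ?_⟩
      exact (hK τ).mpr (hunr τ hτ z hz) a ha
    have hKL : K ≤ L := le_iSup (fun i : 𝒦 => (i : IntermediateField k E)) ⟨K, hKmem⟩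
    rw [IntermediateField.mem_fixingSubgroup_iff] at hσ
    exact (hK σ).mp fun a ha => hσ a (hKL ha)
  have hidx : L.fixingSubgroup.index ≠ 0 := by
    rw [← IntermediateField.finrank_eq_fixingSubgroup_index]
    exact Module.finrank_pos.ne'
  have : L.fixingSubgroup.FiniteIndex := ⟨hidx⟩
  have hQ : Finite ((E ≃ₐ[k] E) ⧸ L.fixingSubgroup) := Subgroup.finite_quotient_of_finiteIndex
  have hT : Finite {z : J // N • z = 0} := htors.to_subtype
  let Φ : ι → ((E ≃ₐ[k] E) ⧸ L.fixingSubgroup → {z : J // N • z = 0}) := fun i q =>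
    ⟨q.out • y i - y i, nsmul_smul_sub_eq_zero N (hy i) q.out⟩
  have hΦ : ∀ (i : ι) (σ : E ≃ₐ[k] E),
      σ • y i - y i = ((Φ i (QuotientGroup.mk σ)).1 : J) := by
    intro i σ
    set ρ : E ≃ₐ[k] E := (QuotientGroup.mk σ : (E ≃ₐ[k] E) ⧸ L.fixingSubgroup).out with hρ
    have hmk : (QuotientGroup.mk ρ : (E ≃ₐ[k] E) ⧸ L.fixingSubgroup) = QuotientGroup.mk σ :=
      QuotientGroup.out_eq' _
    have hτ : ρ⁻¹ * σ ∈ L.fixingSubgroup := QuotientGroup.eq.mp hmk
    have h1 : (ρ⁻¹ * σ) • y i = y i := hfixL (y i) (hy i) _ hτ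
    have h2 : σ • y i = ρ • y i := by
      have : σ = ρ * (ρ⁻¹ * σ) := by group
      rw [this, mul_smul, h1]
    show σ • y i - y i = ρ • y i - y i
    rw [h2]
  have hfinα : Finite ((E ≃ₐ[k] E) ⧸ L.fixingSubgroup → {z : J // N • z = 0}) := inferInstance
  obtain ⟨n, ⟨e⟩⟩ := Finite.exists_equiv_fin
    ((E ≃ₐ[k] E) ⧸ L.fixingSubgroup → {z : J // N • z = 0})
  refine ⟨Fin n, inferInstance, fun i => e (Φ i), fun i i' hii' => ?_⟩
  have hii : Φ i = Φ i' := e.injective hii'
  intro σ
  have e1 := hΦ i σ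
  have e2 := hΦ i' σ
  rw [hii] at e1
  have e3 : σ • y i - y i = σ • y i' - y i' := by rw [e1, e2]
  rw [smul_sub]
  have : σ • y i - σ • y i' = (σ • y i - y i) - (σ • y i' - y i') + (y i - y i') := by abel
  rw [this, e3, sub_self, zero_add]

/-- **Weak Mordell–Weil from weak divisibility.**  `m ≠ 0` fixed; every rational point `x` has
`y` with `(n * m) • y = m • x`. -/
theorem kummer_finiteIndex_weak (n m : ℕ) (_hm : m ≠ 0)
    (hstab : ∀ x : J, ∃ K : IntermediateField k E, FiniteDimensional k K ∧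
      ∀ σ : E ≃ₐ[k] E, (∀ a ∈ K, σ a = a) → σ • x = x)
    (htors : {y : J | (n * m) • y = 0}.Finite)
    (hdiv : ∀ x ∈ FixedPoints.addSubgroup (E ≃ₐ[k] E) J, ∃ y : J, (n * m) • y = m • x)
    (P : (E ≃ₐ[k] E) → Prop)
    (hunr : ∀ σ, P σ → ∀ y : J, (n * m) • y ∈ FixedPoints.addSubgroup (E ≃ₐ[k] E) J →
      σ • y = y)
    (hHM : ∀ d : ℕ, {K : IntermediateField k E | FiniteDimensional k K ∧
      Module.finrank k K ≤ d ∧ ∀ σ, P σ → ∀ a ∈ K, σ a = a}.Finite) :
    (nsmulAddMonoidHom n : FixedPoints.addSubgroup (E ≃ₐ[k] E) J →+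
      FixedPoints.addSubgroup (E ≃ₐ[k] E) J).range.FiniteIndex := by
  classical
  let M := FixedPoints.addSubgroup (E ≃ₐ[k] E) J
  let ydiv : M → J := fun x => Classical.choose (hdiv x.1 x.2)
  have hydiv : ∀ x : M, (n * m) • ydiv x = m • (x : J) := fun x =>
    Classical.choose_spec (hdiv x.1 x.2)
  have hyM : ∀ x : M, (n * m) • ydiv x ∈ FixedPoints.addSubgroup (E ≃ₐ[k] E) J := by
    intro x
    rw [hydiv]
    exact AddSubgroup.nsmul_mem _ x.2 m
  obtain ⟨α, hα, Φ, hΦ⟩ := kummer_fibres (n * m) hstab htors P hunr hHM ydiv hyM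
  -- the `m`-torsion of `M` is finite
  have htm : {z : M | m • z = 0}.Finite := by
    have hinj : Set.InjOn (fun z : M => (z : J)) {z : M | m • z = 0} :=
      fun _ _ _ _ h => Subtype.ext h
    refine Set.Finite.of_finite_image (htors.subset ?_) hinj
    rintro _ ⟨z, hz, rfl⟩
    have hz' : m • (z : J) = 0 := by
      have := congrArg Subtype.val hz
      simpa using this
    show (n * m) • (z : J) = 0
    rw [mul_smul, hz', smul_zero]
  have hT : Finite {z : M // m • z = 0} := htm.to_subtype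
  -- refine the Kummer map by the torsion defect
  let R : AddSubgroup M := (nsmulAddMonoidHom n : M →+ M).range
  -- `x - x' - n w` is `m`-torsion when the cocycles agree
  have key : ∀ x x' : M, Φ x = Φ x' → ∃ w : M, m • (x - x' - n • w) = 0 := by
    intro x x' h
    refine ⟨⟨ydiv x - ydiv x', hΦ x x' h⟩, ?_⟩
    apply Subtype.ext
    show m • ((x : J) - (x' : J) - n • (ydiv x - ydiv x')) = 0
    rw [smul_sub, smul_sub, ← mul_smul, mul_comm m n, smul_sub, hydiv, hydiv]
    abel
  -- the subgroup `R ⊔ M[m]` has finite index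
  let T : AddSubgroup M := (nsmulAddMonoidHom m : M →+ M).ker
  have hTfin : Finite T := by
    have : (T : Set M) = {z : M | m • z = 0} := by
      ext z
      simp [T, AddMonoidHom.mem_ker]
    exact Set.finite_coe_iff.mpr (this ▸ htm)
  have hsup : (R ⊔ T).FiniteIndex := by
    refine finiteIndex_of_fibres _ Φ fun x x' h => ?_
    obtain ⟨w, hw⟩ := key x x' h
    have h1 : x - x' = n • w + (x - x' - n • w) := by abel
    rw [h1]
    refine AddSubgroup.add_mem _ (AddSubgroup.mem_sup_left ⟨w, rfl⟩)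
      (AddSubgroup.mem_sup_right ?_)
    show (nsmulAddMonoidHom m : M →+ M) (x - x' - n • w) = 0
    exact hw
  -- `R` has finite index in `R ⊔ T`
  have hrel : R.relIndex (R ⊔ T) ≠ 0 := by
    rw [AddSubgroup.relIndex_sup_left]
    intro h0
    have hdvd : R.relIndex T ∣ Nat.card T := AddSubgroup.relIndex_dvd_card R T
    rw [h0, zero_dvd_iff] at hdvd
    exact (Nat.card_pos (α := T)).ne' hdvd
  have hidx : R.index ≠ 0 := by
    rw [← AddSubgroup.relIndex_mul_index (le_sup_left : R ≤ R ⊔ T)]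
    exact Nat.mul_ne_zero hrel hsup.index_ne_zero
  exact ⟨hidx⟩

end

end Fermat.Agent.S17.H260
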