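/-
S17 / tower H, geometric layer, leaf G-MOV3 (helper260): the field `mov3` of
`H500.LocalPackage` is a FORMAL consequence of the fields `x_zero`, `x_inf`,
`mult_ne_zero_iff` (and `1 ≤ r`): take the sections `a_j = e_0 + j • e_r`, `j = 0, …, m`.
-/
import Fermat.Agent.S17.H500.LocalPackage

set_option autoImplicit false

noncomputable section

namespace Fermat.Agent.S17.H260

open Fermat.Agent.S17.H500

/-- The `j`-th rational section `e_0 + j • e_r`. -/
def mov3Vec (r : ℕ) (j : ℕ) : Fin (r + 1) → ℚ :=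
  Pi.single 0 1 + (j : ℚ) • Pi.single (Fin.last r) 1

theorem mov3Vec_zero_apply {r : ℕ} (hr : 1 ≤ r) (j : ℕ) : mov3Vec r j 0 = 1 := by
  have h0 : (0 : Fin (r + 1)) ≠ Fin.last r := by
    intro h
    have := congrArg Fin.val h
    simp at this
    omega
  simp [mov3Vec, Pi.single_eq_of_ne h0]

theorem mov3Vec_ne_zero {r : ℕ} (hr : 1 ≤ r) (j : ℕ) : mov3Vec r j ≠ 0 := by
  intro h
  have := congrFun h 0
  rw [mov3Vec_zero_apply hr] at this
  exact one_ne_zero this

theorem evl_mov3Vec {r : ℕ} (hr : 1 ≤ r) (j : ℕ) (y : Fin (r + 1) → QbarH) :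
    evl (fun i => algebraMap ℚ QbarH (mov3Vec r j i)) y = y 0 + (j : QbarH) * y (Fin.last r) := by
  have h0 : (0 : Fin (r + 1)) ≠ Fin.last r := by
    intro h
    have := congrArg Fin.val h
    simp at this
    omega
  unfold evl mov3Vec
  have key : ∀ i : Fin (r + 1),
      algebraMap ℚ QbarH ((Pi.single 0 1 + (j : ℚ) • Pi.single (Fin.last r) 1 :
        Fin (r + 1) → ℚ) i) * y i =
      (Pi.single (0 : Fin (r + 1)) (y 0) : Fin (r + 1) → QbarH) i +
        (Pi.single (Fin.last r) ((j : QbarH) * y (Fin.last r)) : Fin (r + 1) → QbarH) i := by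
    intro i
    by_cases hi0 : i = 0
    · subst hi0
      simp [Pi.single_eq_of_ne h0]
    · by_cases hir : i = Fin.last r
      · subst hir
        simp [Pi.single_eq_of_ne (Ne.symm h0)]
      · simp [Pi.single_eq_of_ne hi0, Pi.single_eq_of_ne hir]
  rw [Finset.sum_congr rfl fun i _ => key i, Finset.sum_add_distrib,
    Finset.sum_pi_single', Finset.sum_pi_single']
  simp

/-- **G-MOV3, formal.**  `m + 1` rational hyperplane sections with pairwise disjoint
supports, from `x_zero`, `x_inf`, `mult_ne_zero_iff`. -/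
theorem mov3_of {Pt : Type} (r m : ℕ) (hr : 1 ≤ r)
    (x : Pt → Fin (r + 1) → QbarH) (mult : (Fin (r + 1) → QbarH) → Pt →₀ ℕ) (inf : Pt)
    (x_zero : ∀ P : Pt, P ≠ inf → x P 0 = 1)
    (x_inf : x inf = Pi.single (Fin.last r) 1)
    (mult_ne_zero_iff : ∀ (a : Fin (r + 1) → QbarH) (P : Pt), a ≠ 0 →
      (mult a P ≠ 0 ↔ evl a (x P) = 0)) :
    ∃ b : Fin (m + 1) → Fin (r + 1) → ℚ, (∀ j, b j ≠ 0) ∧ ∀ j j', j ≠ j' →
      Disjoint (mult fun i => algebraMap ℚ QbarH (b j i)).support
        (mult fun i => algebraMap ℚ QbarH (b j' i)).support := by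
  have h0 : (0 : Fin (r + 1)) ≠ Fin.last r := by
    intro h
    have := congrArg Fin.val h
    simp at this
    omega
  have hne : ∀ j : ℕ, (fun i => algebraMap ℚ QbarH (mov3Vec r j i)) ≠ 0 := by
    intro j h
    have := congrFun h 0
    simp only [mov3Vec_zero_apply hr, map_one, Pi.zero_apply] at this
    exact one_ne_zero this
  refine ⟨fun j => mov3Vec r j, fun j => mov3Vec_ne_zero hr j, fun j j' hjj' => ?_⟩
  rw [Finset.disjoint_left]
  intro P hP hP'
  rw [Finsupp.mem_support_iff, mult_ne_zero_iff _ P (hne j), evl_mov3Vec hr] at hP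
  rw [Finsupp.mem_support_iff, mult_ne_zero_iff _ P (hne j'), evl_mov3Vec hr] at hP'
  have hcast : ((j : ℕ) : QbarH) ≠ ((j' : ℕ) : QbarH) := by
    intro h
    exact hjj' (Fin.ext (Nat.cast_injective h))
  have hsub : (((j : ℕ) : QbarH) - ((j' : ℕ) : QbarH)) * x P (Fin.last r) = 0 := by
    linear_combination hP - hP'
  have hxr : x P (Fin.last r) = 0 := by
    rcases mul_eq_zero.mp hsub with h | h
    · exact absurd (sub_eq_zero.mp h) hcast
    · exact h
  by_cases hPinf : P = inf
  · subst hPinf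
    rw [x_inf] at hxr
    simp at hxr
  · rw [hxr, mul_zero, add_zero, x_zero P hPinf] at hP
    exact one_ne_zero hP

end Fermat.Agent.S17.H260
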