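import Fermat.Agent.S17.H260.KummerWeak
import Fermat.Prelude.Def_ModularCurve_ArithmeticGalois
import Fermat.Prelude.Def_FLTPrelim_Ramification

/-!
# S17, towers W/G (helper260): `WeakMW N n` from WEAK divisibility

`weakMW_of_weakDiv` is the variant of the skeleton piece `weakMW_of` in which the hypothesis
`divisible` (`∀ x, ∃ y, n • y = x`) is replaced by

  `∀ x, ∃ y, (n * m) • y = m • x`     for ONE fixed `m ≠ 0`,

at the price of feeding the torsion / unramifiedness inputs for the exponent `n * m`.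

Use for tower G: if `Pic0 (X₀(N)_ℂ) ≅ Hom(H, S¹)` with `H = Γ^ab / ⟨par, ell⟩` finitely generated and
`m` kills the torsion of `H`, then `m • x` is infinitely divisible for every `x`; torsion-freeness
of `H` is not needed.  The conclusion is verbatim `Skel.WeakMW N n` (unfolded).
-/

set_option autoImplicit false

namespace Fermat.Agent.S17.H260

open ModularCurve AlgebraicCurve

/-- `ℚ̄ / ℚ` is Galois (for the instance of `Algebra ℚ ℚ̄` found by instance resolution). -/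
theorem isGalois_Qb_weakDiv : IsGalois ℚ (AlgebraicClosure ℚ) := by
  have h1 : Algebra.IsAlgebraic ℚ (AlgebraicClosure ℚ) := AlgebraicClosure.isAlgebraic ℚ
  have h2 : IsAlgClosure ℚ (AlgebraicClosure ℚ) := ⟨inferInstance, inferInstance⟩
  have h3 : Normal ℚ (AlgebraicClosure ℚ) := IsAlgClosure.normal ℚ (AlgebraicClosure ℚ)
  exact isGalois_iff.mpr ⟨inferInstance, inferInstance⟩

/-- **Weak Mordell–Weil from weak divisibility** (skeleton shape, definitions unfolded). -/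
theorem weakMW_of_weakDiv (N : ℕ) [NeZero N] (n m : ℕ) (hm : m ≠ 0)
    (hstab : ∀ x : JZero N, ∃ K : IntermediateField ℚ (AlgebraicClosure ℚ),
      FiniteDimensional ℚ K ∧
      ∀ σ : AlgebraicClosure ℚ ≃ₐ[ℚ] AlgebraicClosure ℚ, (∀ a ∈ K, σ a = a) → σ • x = x)
    (htors : Finite (Pic0.torsion (AlgebraicClosure ℚ) (modularFunctionFieldBar N) (n * m)))
    (hdiv : ∀ x : JZero N, ∃ y : JZero N, (n * m) • y = m • x)
    (S : Finset ℕ)
    (hunr : ∀ ℓ : ℕ, ℓ.Prime → ℓ ∉ S → ∀ A : ValuationSubring (AlgebraicClosure ℚ),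
      A.LiesOverPrime ℓ → ∀ σ ∈ A.inertiaSubgroupIn ℚ, ∀ y : JZero N,
        (n * m) • y ∈
          FixedPoints.addSubgroup (AlgebraicClosure ℚ ≃ₐ[ℚ] AlgebraicClosure ℚ) (JZero N) →
        σ • y = y)
    (hHM : ∀ d : ℕ, {K : IntermediateField ℚ (AlgebraicClosure ℚ) | FiniteDimensional ℚ K ∧
      Module.finrank ℚ K ≤ d ∧ ∀ ℓ : ℕ, ℓ.Prime → ℓ ∉ S →
        ∀ A : ValuationSubring (AlgebraicClosure ℚ), A.LiesOverPrime ℓ →
          ∀ σ ∈ A.inertiaSubgroupIn ℚ, ∀ a ∈ K, σ a = a}.Finite) :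
    (nsmulAddMonoidHom n :
      ↥(FixedPoints.addSubgroup (AlgebraicClosure ℚ ≃ₐ[ℚ] AlgebraicClosure ℚ) (JZero N)) →+
      ↥(FixedPoints.addSubgroup (AlgebraicClosure ℚ ≃ₐ[ℚ] AlgebraicClosure ℚ) (JZero N))
      ).range.FiniteIndex := by
  have := isGalois_Qb_weakDiv
  have htors' : {y : JZero N | (n * m) • y = 0}.Finite := by
    have h1 : {y : JZero N | (n * m) • y = 0} =
        (Pic0.torsion (AlgebraicClosure ℚ) (modularFunctionFieldBar N) (n * m) :
          Set (JZero N)) := by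
      ext y
      simp only [Set.mem_ofPred_eq, SetLike.mem_coe, Pic0.mem_torsion, natCast_zsmul]
    rw [h1]
    exact Set.toFinite _
  refine kummer_finiteIndex_weak (k := ℚ) (E := AlgebraicClosure ℚ) (J := JZero N) n m hm hstab
    htors' (fun x _ => hdiv x)
    (fun σ => ∃ ℓ : ℕ, ℓ.Prime ∧ ℓ ∉ S ∧ ∃ A : ValuationSubring (AlgebraicClosure ℚ),
      A.LiesOverPrime ℓ ∧ σ ∈ A.inertiaSubgroupIn ℚ) ?_ ?_
  · rintro σ ⟨ℓ, hℓ, hℓS, A, hA, hσ⟩ y hy
    exact hunr ℓ hℓ hℓS A hA σ hσ y hy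
  · intro d
    refine (hHM d).subset fun K hK => ⟨hK.1, hK.2.1, fun ℓ hℓ hℓS A hA σ hσ a ha => ?_⟩
    exact hK.2.2 σ ⟨ℓ, hℓ, hℓS, A, hA, hσ⟩ a ha

/-- Weak divisibility from a decomposition "torus × finite": if every class `x` satisfies
`m • x ∈ D` for a divisible subgroup `D`, then `m • x` is divisible by `n * m`. -/
theorem weakDiv_of_divisible_subgroup {J : Type*} [AddCommGroup J] (D : AddSubgroup J)
    (hD : ∀ (k : ℕ), k ≠ 0 → ∀ d ∈ D, ∃ e ∈ D, k • e = d) (m : ℕ)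
    (hmD : ∀ x : J, m • x ∈ D) (n : ℕ) (hn : n ≠ 0) (hm : m ≠ 0) (x : J) :
    ∃ y : J, (n * m) • y = m • x := by
  obtain ⟨e, -, he⟩ := hD (n * m) (Nat.mul_ne_zero hn hm) (m • x) (hmD x)
  exact ⟨e, he⟩

end Fermat.Agent.S17.H260
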